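/-
S44 (Mazur-Ribet for the Frey curve: removal of `p` from the level).  Chief architect: helper136.
Route: reports #1151 / #1115 / #1153 (cover trick).

This file: the top-level DEFINITIONS shared by all blocks.

* `TR A p H`     : "tres ramifiee": the fixed field of `H` (a set of inertia elements) contains a
                   `p`-th root `α` of an element of the inertia field whose valuation is not
                   divisible by `p`.
* `IsRed A u ū`  : `ū ∈ k((q))` is the reduction of `u ∈ FN N` for the Gauss valuation attached to `A`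
                   (after scaling by a constant).
* `NewPair`      : a copy `⟨[u₀], [u₁]⟩` of `E[p]` inside the `p`-new part of the Kummer model
                   `W (M' p) p`, in a basis adapted to the inertia group at `A`.
-/
import Fermat.Statements.S44
import Fermat.Agent.GAL.E.HeckeOp
import Fermat.Agent.S13.FreyDefs

set_option autoImplicit false

noncomputable section

namespace Fermat.Agent.S44

open ModularCurve AlgebraicCurve Fermat.Agent.S24 Fermat.Agent.GAL

/-- `ℚ̄` -/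
abbrev Qb : Type := AlgebraicClosure ℚ

/-- `G_ℚ` -/
abbrev GQ : Type := Qb ≃ₐ[ℚ] Qb

/-- the inertia group at `A` -/
abbrev Iner (A : ValuationSubring Qb) : Subgroup GQ := A.inertiaSubgroupIn ℚ

/-- the residue field of `A` -/
abbrev kA (A : ValuationSubring Qb) : Type := IsLocalRing.ResidueField A

/-- the function field of `X₀(M)` over the residue field of `A` -/
abbrev Fk (A : ValuationSubring Qb) (M : ℕ) : Type := modularFunctionFieldFullC (kA A) M

set_option synthInstance.maxHeartbeats 400000 in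
instance algebraFk (A : ValuationSubring Qb) (M : ℕ) : Algebra (kA A) (Fk A M) := inferInstance

instance neZero_p (P : FreyPackage) : NeZero P.p := ⟨P.hp0⟩

/-- **Tres ramifiee.**  `H` is a set of elements of the inertia group at `A` (the pointwise
stabiliser of a Galois module `V`).  The field fixed by `H` contains an element `α` such that
`α ^ p` lies in the inertia field and has valuation `v(p) ^ j` with `p ∤ j`. -/
def TR (A : ValuationSubring Qb) (p : ℕ) (H : Set GQ) : Prop :=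
  ∃ (α : Qb) (j : ℤ), (∀ σ ∈ H, σ α = α) ∧ (∀ σ ∈ Iner A, σ (α ^ p) = α ^ p) ∧ ¬ (p : ℤ) ∣ j ∧
    A.valuation (α ^ p) = A.valuation (p : Qb) ^ j

theorem TR.mono {A : ValuationSubring Qb} {p : ℕ} {H H' : Set GQ} (h : H' ⊆ H) (hT : TR A p H) :
    TR A p H' := by
  obtain ⟨α, j, h1, h2, h3, h4⟩ := hT
  exact ⟨α, j, fun σ hσ => h1 σ (h hσ), h2, h3, h4⟩

/-- `ū` is the reduction of `u` (up to a nonzero constant of `ℚ̄`). -/
def IsRed (A : ValuationSubring Qb) {N : ℕ} (u : FN N) (ubar : LaurentSeries (kA A)) : Prop :=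
  ∃ (c : Qb) (x y : LaurentSeries A) (hx : E.incl A x ∈ modularFunctionFieldBar N)
    (hy : E.incl A y ∈ modularFunctionFieldBar N), c ≠ 0 ∧ E.red A x ≠ 0 ∧ E.red A y ≠ 0 ∧
      u = algebraMap Qb (FN N) c * ((⟨E.incl A x, hx⟩ : FN N) / ⟨E.incl A y, hy⟩) ∧
      ubar * E.red A y = E.red A x

section Norm

variable (N ℓ : ℕ) [NeZero N] [NeZero ℓ]

/-- `FN (N * ℓ)` as an algebra over `FN N` through `β : f(τ) ↦ f(ℓ τ)`. -/
abbrev algBeta : Algebra (FN N) (FN (N * ℓ)) :=
  (heckeBetaBar Kbar N ℓ).toRingHom.toAlgebra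

/-- The norm along `β`. -/
def normBeta : FN (N * ℓ) →* FN N :=
  letI := algBeta N ℓ
  Algebra.norm (FN N)

end Norm

/-- the underlying function of a Kummer unit -/
abbrev fn {N n : ℕ} (u : E.kum N n) : FN N := ((u : (FN N)ˣ) : FN N)

/-- The pointwise stabiliser of `E[p]` in the inertia group. -/
def stabE (P : FreyPackage) (A : ValuationSubring Qb) : Set GQ :=
  {σ | σ ∈ Iner A ∧ ∀ x : S13.Vp P, σ • x = x}

/-- The pointwise stabiliser of `⟨[u₀], [u₁]⟩` in the inertia group. -/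
def stabU (A : ValuationSubring Qb) {N n : ℕ} (u₀ u₁ : E.kum N n) : Set GQ :=
  {σ | σ ∈ Iner A ∧ E.rho N n σ (E.cls u₀) = E.cls u₀ ∧ E.rho N n σ (E.cls u₁) = E.cls u₁}

/-- **A `p`-new copy of `E[p]` in the Kummer model of level `M' p`**, in a basis adapted to the
inertia group at `A` (`A` lies over `p`).  `W` is the integral model whose `a_ℓ` are used. -/
structure NewPair (P : FreyPackage) (M' : ℕ) [NeZero M'] (A : ValuationSubring Qb)
    (W : WeierstrassCurve ℤ) (u₀ u₁ : E.kum (M' * P.p) P.p) : Prop where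
  /-- `[u₀]`, `[u₁]` are linearly independent over `𝔽_p` -/
  indep : ∀ i j : ℕ, i • E.cls u₀ + j • E.cls u₁ = 0 → P.p ∣ i ∧ P.p ∣ j
  /-- inertia acts on `[u₀]` through the cyclotomic character -/
  gal₀ : ∀ σ ∈ Iner A, ∀ m : ℕ, (∀ ζ : Qb, ζ ^ P.p = 1 → σ ζ = ζ ^ m) →
    E.rho (M' * P.p) P.p σ (E.cls u₀) = m • E.cls u₀
  /-- inertia acts trivially modulo `[u₀]` -/
  gal₁ : ∀ σ ∈ Iner A, ∃ m : ℕ,
    E.rho (M' * P.p) P.p σ (E.cls u₁) = E.cls u₁ + m • E.cls u₀
  /-- the module is a quotient of `E[p]` as far as stabilisers are concerned -/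
  stab : stabE P A ⊆ stabU A u₀ u₁
  /-- Hecke eigenvalues -/
  hecke : ∀ (ℓ : ℕ) [NeZero ℓ], ℓ.Prime → W.IsGoodPrimeFor ℓ → ¬ ℓ ∣ M' * P.p →
    ∀ (H : E.HeckeOp (M' * P.p) ℓ) (a : ℕ), (a : ZMod P.p) = ((W.apOfModel ℓ : ℤ) : ZMod P.p) →
      H.TW P.p (E.cls u₀) = a • E.cls u₀ ∧ H.TW P.p (E.cls u₁) = a • E.cls u₁
  /-- `p`-new: both norms to level `M'` are trivial -/
  newα₀ : ∃ v : FN M', E.normAlpha M' P.p (fn u₀) = v ^ P.p
  newβ₀ : ∃ v : FN M', normBeta M' P.p (fn u₀) = v ^ P.p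
  newα₁ : ∃ v : FN M', E.normAlpha M' P.p (fn u₁) = v ^ P.p
  newβ₁ : ∃ v : FN M', normBeta M' P.p (fn u₁) = v ^ P.p
  /-- the eigensystem is not Eisenstein (witnessed by an odd prime) -/
  nonEis : ∃ ℓ : ℕ, ℓ.Prime ∧ ℓ ≠ 2 ∧ W.IsGoodPrimeFor ℓ ∧ ¬ ℓ ∣ M' * P.p ∧
    ((W.apOfModel ℓ : ℤ) : ZMod P.p) ≠ (ℓ : ZMod P.p) + 1

/-- **The output of the geometric part**: the reduction of `u₁` on the component `C_∞ = X₀(M')_k`
is a function whose divisor is divisible by `p`, and which is not a `p`-th power. -/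
def GoodRed (P : FreyPackage) (M' : ℕ) (A : ValuationSubring Qb)
    (u₁ : E.kum (M' * P.p) P.p) : Prop :=
  ∃ ubar : Fk A M', IsRed A (fn u₁) (ubar : LaurentSeries (kA A)) ∧
    (∀ v : Place (kA A) (Fk A M'), (P.p : ℤ) ∣ v.ord ubar) ∧ ¬ ∃ y : Fk A M', ubar = y ^ P.p

end Fermat.Agent.S44

end
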