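/-
S44, top level (chief helper136): the four nodes and the deduction of the frozen statement.

  NodeV  (global, on top of GAL)  : old/new dichotomy, a copy of `E[p]` in the `p`-new Kummer model
  NodeES (Frey curve at `p ∣ abc`): `E[p]` is not tres ramifiee at `p`
  NodeX  (geometry at `p`)        : cover trick: tres ramifiee, or the reduction of `u₁` is good
  NodeF  (final node)             : a good reduction gives an eigenform of level `M'`
-/
import Fermat.Agent.S44.Defs

set_option autoImplicit false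

noncomputable section

namespace Fermat.Agent.S44

open ModularCurve AlgebraicCurve Fermat.Agent.S24 Fermat.Agent.GAL
open WeierstrassCurve WeierstrassCurve.Affine WeierstrassCurve.Affine.Point

/-- **Node V** (blocks GAL + Boston-Lenstra-Ribet + Frobenius density + Lib/FrobCH).
Either the eigensystem already occurs at level `M'`, or there is a `p`-new copy of `E[p]`. -/
def NodeV : Prop :=
  ∀ (P : FreyPackage) (M' : ℕ) [NeZero M'], P.IsConductorLevel (M' * P.p) →
    GaloisRepIsIrreducible (K := AlgebraicClosure ℚ) ℚ P.freyCurve P.p →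
    P.ModularRepOfLevel (M' * P.p) →
    ∀ A : ValuationSubring Qb, A.LiesOverPrime P.p →
      P.ModularRepOfLevel M' ∨
        ∃ (W : WeierstrassCurve ℤ) (u₀ u₁ : E.kum (M' * P.p) P.p),
          W.IsIntegralModelOf P.freyCurve ∧ NewPair P M' A W u₀ u₁

/-- **Node ES** (E-side; on top of the landed S13 / S05 files). -/
def NodeES : Prop :=
  ∀ (P : FreyPackage), (P.p : ℤ) ∣ P.a * P.b * P.c →
    ∀ A : ValuationSubring Qb, A.LiesOverPrime P.p → ¬ TR A P.p (stabE P A)

/-- **Node X** (cover trick + Eisenstein exclusion + S33-L3). -/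
def NodeX : Prop :=
  ∀ (P : FreyPackage) (M' : ℕ) [NeZero M'], Squarefree (M' * P.p) →
    ∀ A : ValuationSubring Qb, A.LiesOverPrime P.p →
      ∀ (W : WeierstrassCurve ℤ) (u₀ u₁ : E.kum (M' * P.p) P.p), NewPair P M' A W u₀ u₁ →
        TR A P.p (stabU A u₀ u₁) ∨ GoodRed P M' A u₁

/-- **Node F** (final node). -/
def NodeF : Prop :=
  ∀ (P : FreyPackage) (M' : ℕ) [NeZero M'], Squarefree (M' * P.p) →
    ∀ A : ValuationSubring Qb, A.LiesOverPrime P.p →
      ∀ (W : WeierstrassCurve ℤ) (u₀ u₁ : E.kum (M' * P.p) P.p),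
        W.IsIntegralModelOf P.freyCurve → NewPair P M' A W u₀ u₁ → GoodRed P M' A u₁ →
          P.ModularRepOfLevel M'

/-- there is a valuation subring of `ℚ̄` over every prime (landed many times; restated as a node to
keep the closure of this file small) -/
def NodePlace : Prop :=
  ∀ p : ℕ, p.Prime → ∃ A : ValuationSubring Qb, A.LiesOverPrime p

theorem result_of_nodes (hPl : NodePlace) (hV : NodeV) (hES : NodeES) (hX : NodeX) (hF : NodeF)
    (P : FreyPackage) {N : ℕ} (hcond : P.IsConductorLevel N) (hpN : P.p ∣ N)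
    (hirr : GaloisRepIsIrreducible (K := AlgebraicClosure ℚ) ℚ P.freyCurve P.p)
    (hmod : P.ModularRepOfLevel N) :
    ∃ M : ℕ, M ∣ N ∧ ¬ P.p ∣ M ∧ P.ModularRepOfLevel M := by
  obtain ⟨M', rfl⟩ : ∃ M', N = M' * P.p := ⟨N / P.p, (Nat.div_mul_cancel hpN).symm⟩
  have hM0 : M' ≠ 0 := by
    rintro rfl
    exact absurd hcond.pos (by simp)
  haveI : NeZero M' := ⟨hM0⟩
  have hpM : ¬ P.p ∣ M' := by
    rintro ⟨c, rfl⟩
    exact hcond.sq_not_dvd P.pp ⟨c, by ring⟩
  refine ⟨M', Dvd.intro _ rfl, hpM, ?_⟩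
  obtain ⟨A, hA⟩ := hPl P.p P.pp
  rcases hV P M' hcond hirr hmod A hA with h | ⟨W, u₀, u₁, hW, hN⟩
  · exact h
  · rcases hX P M' hcond.squarefree A hA W u₀ u₁ hN with hT | hG
    · exact absurd (hT.mono hN.stab) (hES P (hcond.p_dvd_abc hpN) A hA)
    · exact hF P M' hcond.squarefree A hA W u₀ u₁ hW hN hG

end Fermat.Agent.S44

end
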